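import Fermat.Agent.LT.A2.H467.WeilExSpec

/-!
# Row LT, tower A2, station A2.03.1.1 `DataC`, sub-station LOC-FIN -- THE INTERFACE (helper361)

OFF-MAIN.  Definitions and PROVED consumer lemmas only.  No holes, nothing assumed.

The local Weil representation at one place, as a PACKAGE `WeilPkg`: an action
`R g m : (k × k → ℂ) → (k × k → ℂ)` of the admissible pairs `(g, m)` (`m ∈ T(k)`,
`det g = det m ≠ 0`, `WX467.AdmL`) on functions on `k²`, which on the Schwartz--Bruhat functions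
(`IsSB`: locally constant with compact support) is multiplicative and has the four standard values

    R (n(x), 1) Φ = ψ(x Q) Φ,      R (w, 1) Φ = γ · FT Φ,      R (t(a), 1) Φ = η(a) |a| Φ(a ·),
    |det μ'|^{1/2} · R (d(det μ'), μ') Φ = Φ(μ'⁻¹ ·),

together with the character properties of `η`.  Conventions of `WeilExSpec.lean` (helper467):
`w = [[0,1],[-1,0]]`, `n(x) = [[1,x],[0,1]]`, `t(a) = diag(a, a⁻¹)`, `d(a) = diag(1, a)`,
`FT Φ (ξ) = ∫ Φ(y) ψ(B(ξ, y)) dy` for the product measure `μ × μ`.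

CONSUMERS.  For EVERY Schwartz--Bruhat `Φ₀` the family `F g m := R g m Φ₀` satisfies
`WX467.LocAx` (`locAx_of_pkg361`), is Schwartz--Bruhat (`WeilPkg.sb`), has `F 1 1 = Φ₀`
(`WeilPkg.one`), and `F (g k) (m κ) = F g m` as soon as `R k κ Φ₀ = Φ₀`
(`right_inv_of_fixed361`).  So LOC-GOOD and LOC-BAD only have to choose `Φ₀` and to check
that it is fixed by the generators of the level group.
-/

set_option autoImplicit false
set_option linter.unusedSectionVars false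

open MeasureTheory
open scoped Topology

noncomputable section

namespace Fermat.Agent.LT.A2.LF361

open Fermat.Agent.LT.A2.WX467

section Local

variable {k : Type} [Field k] [TopologicalSpace k]

/-- Schwartz--Bruhat functions on `k²`: locally constant with compact support. -/
def IsSB (f : k × k → ℂ) : Prop := IsLocallyConstant f ∧ HasCompactSupport f

/-- The Fourier transform on `k²` for the pairing `ψ ∘ B` and the measure `μ × μ`
(the integral of `LocAx.weyl`). -/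
def ftL (t n : k) (ψ : k → ℂ) (μ : @Measure k (borel k)) (f : k × k → ℂ) (ξ : k × k) : ℂ :=
  intL μ fun y => f y * ψ (bfL t n ξ y)

/-- `N(x) Φ = ψ(x Q) Φ`. -/
def opN (t n : k) (ψ : k → ℂ) (x : k) (Φ : k × k → ℂ) : k × k → ℂ :=
  fun ξ => ψ (x * qfL t n ξ) * Φ ξ

/-- `W Φ = γ · FT Φ`. -/
def opW (t n : k) (ψ : k → ℂ) (μ : @Measure k (borel k)) (γ : ℂ) (Φ : k × k → ℂ) :
    k × k → ℂ :=
  fun ξ => γ * ftL t n ψ μ Φ ξ

/-- `T(a) Φ = η(a) |a| Φ(a ·)`. -/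
def opT (absv : k → ℝ) (η : k → ℂ) (a : k) (Φ : k × k → ℂ) : k × k → ℂ :=
  fun ξ => η a * ((absv a : ℝ) : ℂ) * Φ (a • ξ)

/-- The matrices of the generators. -/
def nMat (x : k) : Matrix (Fin 2) (Fin 2) k := !![1, x; 0, 1]

/-- The Weyl element `w = [[0,1],[-1,0]]`. -/
def wMat : Matrix (Fin 2) (Fin 2) k := !![0, 1; -1, 0]

/-- `t(a) = diag(a, a⁻¹)`. -/
def tMat (a : k) : Matrix (Fin 2) (Fin 2) k := !![a, 0; 0, a⁻¹]

/-- `d(a) = diag(1, a)`. -/
def dMat (a : k) : Matrix (Fin 2) (Fin 2) k := !![1, 0; 0, a]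

/-- **THE PACKAGE: the local Weil representation** of the admissible pairs on the
Schwartz--Bruhat functions, with module `absv`, character `ψ`, measure `μ`, constant `γ`,
quadratic character `η`. -/
structure WeilPkg (absv : k → ℝ) (t n : k) (ψ : k → ℂ) (μ : @Measure k (borel k)) (γ : ℂ)
    (η : k → ℂ)
    (R : Matrix (Fin 2) (Fin 2) k → Matrix (Fin 2) (Fin 2) k → (k × k → ℂ) → k × k → ℂ) :
    Prop where
  /-- Schwartz--Bruhat functions are preserved. -/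
  sb : ∀ g m : Matrix (Fin 2) (Fin 2) k, AdmL t n g m → ∀ Φ : k × k → ℂ, IsSB Φ →
    IsSB (R g m Φ)
  one : ∀ Φ : k × k → ℂ, IsSB Φ → R 1 1 Φ = Φ
  /-- Multiplicativity on the admissible pairs. -/
  mul : ∀ g m g' m' : Matrix (Fin 2) (Fin 2) k, AdmL t n g m → AdmL t n g' m' →
    ∀ Φ : k × k → ℂ, IsSB Φ → R (g * g') (m * m') Φ = R g m (R g' m' Φ)
  unip : ∀ (x : k) (Φ : k × k → ℂ), IsSB Φ → R (nMat x) 1 Φ = opN t n ψ x Φ
  weyl : ∀ Φ : k × k → ℂ, IsSB Φ → R wMat 1 Φ = opW t n ψ μ γ Φ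
  diag : ∀ a : k, a ≠ 0 → ∀ Φ : k × k → ℂ, IsSB Φ → R (tMat a) 1 Φ = opT absv η a Φ
  /-- `|det μ'|^{1/2} R (d(det μ'), μ') Φ = Φ(μ'⁻¹ ·)`. -/
  tor : ∀ μ' : Matrix (Fin 2) (Fin 2) k, InTorL t n μ' → μ'.det ≠ 0 →
    ∀ Φ : k × k → ℂ, IsSB Φ → ∀ ξ : k × k,
      ((Real.sqrt (absv μ'.det) : ℝ) : ℂ) * R (dMat μ'.det) μ' Φ ξ = Φ (actL μ'⁻¹ ξ)
  eta_mul : ∀ a b : k, a ≠ 0 → b ≠ 0 → η (a * b) = η a * η b
  eta_sq : ∀ a : k, a ≠ 0 → η a = 1 ∨ η a = -1
  eta_norm : ∀ μ' : Matrix (Fin 2) (Fin 2) k, InTorL t n μ' → μ'.det ≠ 0 → η μ'.det = 1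
  eta_cont : ContinuousOn η {a | a ≠ 0}

/-- The hypotheses on the measure (the field `haar` of `LocAx`). -/
def IsHaarL (μ : @Measure k (borel k)) : Prop :=
  (letI : MeasurableSpace k := borel k
    ∀ (x : k) (S : Set k), μ ((fun y => x + y) '' S) = μ S) ∧
    (∀ C : Set k, IsCompact C → μ C < ⊤) ∧ ∀ U : Set k, IsOpen U → U.Nonempty → 0 < μ U

/-- The hypotheses on the character (the field `psi_char` of `LocAx`). -/
def IsCharL (ψ : k → ℂ) : Prop :=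
  Continuous ψ ∧ (∀ x y : k, ψ (x + y) = ψ x * ψ y) ∧ ∀ x : k, ‖ψ x‖ = 1

theorem inTorL_one361 (t n : k) : InTorL t n (1 : Matrix (Fin 2) (Fin 2) k) := by
  refine ⟨1, 0, ?_⟩
  ext i j
  fin_cases i <;> fin_cases j <;> simp [torMat]

theorem admL_sl361 (t n : k) (s : Matrix (Fin 2) (Fin 2) k) (hs : s.det = 1) :
    AdmL t n s 1 :=
  ⟨inTorL_one361 t n, by rw [hs, Matrix.det_one], by rw [Matrix.det_one]; exact one_ne_zero⟩

theorem det_nMat361 (x : k) : (nMat x).det = 1 := by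
  simp [nMat, Matrix.det_fin_two_of]

theorem det_wMat361 : (wMat : Matrix (Fin 2) (Fin 2) k).det = 1 := by
  simp [wMat, Matrix.det_fin_two_of]

theorem det_tMat361 {a : k} (ha : a ≠ 0) : (tMat a).det = 1 := by
  simp [tMat, Matrix.det_fin_two_of, ha]

theorem det_dMat361 (a : k) : (dMat a).det = a := by
  simp [dMat, Matrix.det_fin_two_of]

theorem admL_tor361 (t n : k) (μ' : Matrix (Fin 2) (Fin 2) k) (h : InTorL t n μ')
    (hd : μ'.det ≠ 0) : AdmL t n (dMat μ'.det) μ' :=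
  ⟨h, det_dMat361 _, hd⟩

/-- **CONSUMER 1.**  For every Schwartz--Bruhat `Φ₀` the orbit `F g m = R g m Φ₀` of the package
satisfies the local axioms `LocAx` of `WeilExSpec.lean`. -/
theorem locAx_of_pkg361 {absv : k → ℝ} {t n : k} {ψ : k → ℂ} {μ : @Measure k (borel k)}
    {γ : ℂ} {η : k → ℂ}
    {R : Matrix (Fin 2) (Fin 2) k → Matrix (Fin 2) (Fin 2) k → (k × k → ℂ) → k × k → ℂ}
    (hR : WeilPkg absv t n ψ μ γ η R) (hμ : IsHaarL μ) (hψ : IsCharL ψ)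
    (hint : ∀ Φ : k × k → ℂ, IsSB Φ → IntegrableL μ Φ)
    (Φ₀ : k × k → ℂ) (h₀ : IsSB Φ₀) :
    LocAx absv t n ψ μ γ η (fun g m => R g m Φ₀) where
  unip := by
    intro x g m ξ hgm
    have h := hR.mul (nMat x) 1 g m (admL_sl361 t n _ (det_nMat361 x)) hgm Φ₀ h₀
    rw [one_mul] at h
    have h2 := hR.unip x (R g m Φ₀) (hR.sb g m hgm Φ₀ h₀)
    show R (nMat x * g) m Φ₀ ξ = _
    rw [h, h2]
    rfl
  weyl := by
    intro g m ξ hgm
    have h := hR.mul wMat 1 g m (admL_sl361 t n _ det_wMat361) hgm Φ₀ h₀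
    rw [one_mul] at h
    have h2 := hR.weyl (R g m Φ₀) (hR.sb g m hgm Φ₀ h₀)
    show R (wMat * g) m Φ₀ ξ = _
    rw [h, h2]
    rfl
  diag := by
    intro a ha g m ξ hgm
    have h := hR.mul (tMat a) 1 g m (admL_sl361 t n _ (det_tMat361 ha)) hgm Φ₀ h₀
    rw [one_mul] at h
    have h2 := hR.diag a ha (R g m Φ₀) (hR.sb g m hgm Φ₀ h₀)
    show R (tMat a * g) m Φ₀ ξ = _
    rw [h, h2]
    rfl
  tor := by
    intro μ' hμ' hd g m ξ hgm
    have h := hR.mul (dMat μ'.det) μ' g m (admL_tor361 t n μ' hμ' hd) hgm Φ₀ h₀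
    have h2 := hR.tor μ' hμ' hd (R g m Φ₀) (hR.sb g m hgm Φ₀ h₀) ξ
    show _ * R (dMat μ'.det * g) (μ' * m) Φ₀ ξ = _
    rw [h]
    exact h2
  eta_mul := hR.eta_mul
  eta_sq := hR.eta_sq
  eta_norm := hR.eta_norm
  eta_cont := hR.eta_cont
  haar := hμ
  psi_char := hψ
  cont := fun g m hgm => (hR.sb g m hgm Φ₀ h₀).1.continuous
  integrable := fun g m hgm => hint _ (hR.sb g m hgm Φ₀ h₀)

/-- **CONSUMER 2.**  Right invariance of the orbit under a pair which fixes `Φ₀`. -/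
theorem right_inv_of_fixed361 {absv : k → ℝ} {t n : k} {ψ : k → ℂ}
    {μ : @Measure k (borel k)} {γ : ℂ} {η : k → ℂ}
    {R : Matrix (Fin 2) (Fin 2) k → Matrix (Fin 2) (Fin 2) k → (k × k → ℂ) → k × k → ℂ}
    (hR : WeilPkg absv t n ψ μ γ η R) (Φ₀ : k × k → ℂ) (h₀ : IsSB Φ₀)
    (κ' κ : Matrix (Fin 2) (Fin 2) k) (hκ : AdmL t n κ' κ) (hfix : R κ' κ Φ₀ = Φ₀)
    (g m : Matrix (Fin 2) (Fin 2) k) (hgm : AdmL t n g m) :
    R (g * κ') (m * κ) Φ₀ = R g m Φ₀ := by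
  rw [hR.mul g m κ' κ hgm hκ Φ₀ h₀, hfix]

end Local

end Fermat.Agent.LT.A2.LF361

end
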