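import Fermat.Agent.LT.A2.H361.LocFinPkg

/-!
# Row LT, tower A2, station `DataC`, sub-station LOC-FIN -- THE CUT (sub-architect helper361)

OFF-MAIN.  Definitions, frozen Props and the PROVED top `pkg_of_leaves361`.  No holes.

TARGET (`PkgC`): at every finite place `v` of every number field `K`, for ALL `t n : K_v` with
`t² - 4n ≠ 0`, EVERY nontrivial continuous unitary character `ψ` of `K_v` and EVERY Haar measure
`μ` of `K_v` there are `γ`, `η`, `R` with `WeilPkg ‖·‖ t n ψ μ γ η R` (`LocFinPkg.lean`).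

    PkgC ⟸ SBIntC + HaarGL2C + FTSBC + FTInvC + GaussC          (ANALYSIS on `S(K_v²)`)
          + NormIndexC + NormOpenC + SumNormC                     (ARITHMETIC of the norm form)
          + ConstIdC + EtaC                                       (the constants `γ`, `η`)
          + CellC + TorExtC                                       (ABSTRACT algebra of `SL₂`)
          + AsmC                                                  (assembly)

## The mathematics (notation: `F = ftL`, `N(x) Φ = ψ(xQ) Φ`, `T₀(a) Φ = |a| Φ(a·)`, `S = S(k²)`)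

* `F² Φ = κ Φ(-·)` (`FTInvC`), `F T₀(a) = T₀(a⁻¹) F` (`HaarGL2C`, `A = a·1`).
* GAUSS (`GaussC`): `F N(a) F Φ (ξ) = G(a) ψ(-Q(ξ)/a) · (F N(-1/a) Φ)(-ξ/a)`; formally
  `G(a) = ∫ ψ(a Q(y)) dy` (the integral over a large lattice; it is stationary).  Put
  `c(a) = G(a) |a|` (`cL`).  Then `F N(a) F = c(a) N(-1/a) T₀(-1/a) F N(-1/a)`.
* CONSTANTS (`ConstIdC`), formal consequences: `c(a) ≠ 0`; `c(a N(λ)) = c(a)` (change of
  variable `y ↦ λ y`); (I1) `c(a) c(-a) = κ` (from `(F N(a) F)(F N(-a) F) = κ²`);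
  (I2) `c(a) c((ab-1)/a) = c(b) c(b(ab-1))` (the two ways to reduce `F N(a) F N(b) F`).
* ETA (`EtaC`): `γ := 1 / c(-1)`, `η(b) := c(-b) / c(-1)`.  `η = 1` on the norms; the norm group
  has index `≤ 2` (`NormIndexC`), so `η` is a character as soon as `z := η(ε)` (`ε` a non-norm)
  has `z² = 1`: if `-1` is a norm, (I1) gives `η(ε) η(-ε) = η(-1) = 1`; if not, take norms
  `m`, `1` with `m + 1` a non-norm (`SumNormC`) and use (I2) in the form
  `η(1) η(m) = η(m+1) η(m(m+1))`.  Then `γ² κ = η(-1)` (I1 at `a = 1`) and `γ c(a) = η(-a)`: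
  these are exactly `W² = T(-1)` and `W N(a) W = T(-1/a) N(-a) W N(-1/a)` for `W = γ F`,
  `T(a) = η(a) T₀(a)`.
* CELLS (`CellC`, any field, any monoid): operators `N, T, W` with the six relations
  `R1 … R6` (`CellRel`) define `r : SL₂(k) → M` by `r [[a,b],[0,a⁻¹]] = N(ab) T(a)` and
  `r [[a,b],[c,d]] = N(a/c) W T(-c) N(d/c)` (`c ≠ 0`); `r (g s) = r g · r s` is checked for
  `g ∈ {n(x), t(u), w}` cell by cell (the case `w`, `a c ≠ 0` is `R6`).
* TORUS (`TorExtC`): `R (g, m) := r (g d(det m)⁻¹) · D(m)`, `D(m) Φ = |det m|^{-1/2} Φ(m⁻¹ ·)`.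
* NORM INDEX (`NormIndexC`), elementary, NO class field theory: split case: the norm is
  surjective; field case `L = k[ω]`: `[k^× : k^×²] = 4/|2|` and `[N L^× : k^×²] =
  [L¹ : (L¹)²] = 2/|2|` (Hilbert 90 `z = y/σy`; the squaring map on `1 + ϖ^n 𝒪` and, by the
  Cayley transform `x ↦ (1 + xθ)/(1 - xθ)`, `θ² = t² - 4n`, on `L¹` near `1`; index calculus
  `q(A) = q(B)` for `B ⊂ A` of finite index, `q = [A : A²] / #A[2]`).

Everything is a TRUE statement.  Mathlib only, except the byte-identical Spec closure.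
-/

set_option autoImplicit false
set_option linter.unusedSectionVars false

open IsDedekindDomain NumberField MeasureTheory
open scoped Topology

noncomputable section

namespace Fermat.Agent.LT.A2.LF361

open Fermat.Agent.LT.A2.WX467

/-! ## 1. Local Props (a topological field `k`) -/

section Local

variable {k : Type} [Field k] [TopologicalSpace k]

/-- Schwartz--Bruhat functions are integrable for `μ × μ`. -/
def SBIntAt (μ : @Measure k (borel k)) : Prop :=
  ∀ Φ : k × k → ℂ, IsSB Φ → IntegrableL μ Φ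

/-- Linear change of variable on `k²`: `∫ f(A y) dy = |det A|⁻¹ ∫ f(y) dy`. -/
def HaarGL2At (absv : k → ℝ) (μ : @Measure k (borel k)) : Prop :=
  ∀ A : Matrix (Fin 2) (Fin 2) k, A.det ≠ 0 → ∀ f : k × k → ℂ, IsSB f →
    intL μ (fun y => f (actL A y)) = (((absv A.det)⁻¹ : ℝ) : ℂ) * intL μ f

/-- The Fourier transform preserves the Schwartz--Bruhat functions. -/
def FTSBAt (t n : k) (ψ : k → ℂ) (μ : @Measure k (borel k)) : Prop :=
  ∀ Φ : k × k → ℂ, IsSB Φ → IsSB (ftL t n ψ μ Φ)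

/-- Fourier inversion with constant `κ > 0`: `F (F Φ) (ξ) = κ Φ(-ξ)`. -/
def FTInvAt (t n : k) (ψ : k → ℂ) (μ : @Measure k (borel k)) (κ : ℝ) : Prop :=
  0 < κ ∧ ∀ Φ : k × k → ℂ, IsSB Φ → ∀ ξ : k × k,
    ftL t n ψ μ (ftL t n ψ μ Φ) ξ = (κ : ℂ) * Φ (-ξ)

/-- The Gauss identity with constant `gs a = G(a)`:
`F (ψ(aQ) · F Φ) (ξ) = G(a) ψ(-Q(ξ)/a) · F (ψ(-Q/a) Φ) (-ξ/a)`. -/
def GaussAt (t n : k) (ψ : k → ℂ) (μ : @Measure k (borel k)) (gs : k → ℂ) : Prop :=
  ∀ a : k, a ≠ 0 → ∀ Φ : k × k → ℂ, IsSB Φ → ∀ ξ : k × k,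
    ftL t n ψ μ (fun y => ψ (a * qfL t n y) * ftL t n ψ μ Φ y) ξ
      = gs a * (ψ (-(a⁻¹ * qfL t n ξ)) *
          ftL t n ψ μ (fun y => ψ (-(a⁻¹ * qfL t n y)) * Φ y) ((-a⁻¹) • ξ))

/-- `a` is a value of the norm form `Q(x, y) = x² + t x y + n y²`. -/
def IsNormL (t n : k) (a : k) : Prop := ∃ x y : k, qfL t n (x, y) = a

/-- The group of the nonzero norms has index `≤ 2` in `k^×`. -/
def NormIndexAt (t n : k) : Prop :=
  ∃ ε : k, ε ≠ 0 ∧ ∀ a : k, a ≠ 0 → IsNormL t n a ∨ IsNormL t n (a * ε)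

/-- If `-1` is not a norm, the sum of two nonzero norms can be a nonzero non-norm. -/
def SumNormAt (t n : k) : Prop :=
  ¬ IsNormL t n (-1) →
    ∃ a b : k, a ≠ 0 ∧ b ≠ 0 ∧ IsNormL t n a ∧ IsNormL t n b ∧ a + b ≠ 0 ∧
      ¬ IsNormL t n (a + b)

/-- `c(a) = G(a) |a|`. -/
def cL (absv : k → ℝ) (gs : k → ℂ) (a : k) : ℂ := gs a * ((absv a : ℝ) : ℂ)

/-- The identities between the constants `κ` and `c(a) = G(a) |a|`. -/
structure ConstIdOut (absv : k → ℝ) (t n : k) (κ : ℝ) (gs : k → ℂ) : Prop where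
  ne_zero : ∀ a : k, a ≠ 0 → gs a ≠ 0
  inv : ∀ a b : k, a ≠ 0 → b ≠ 0 → IsNormL t n b → cL absv gs (a * b) = cL absv gs a
  i1 : ∀ a : k, a ≠ 0 → cL absv gs a * cL absv gs (-a) = (κ : ℂ)
  i2 : ∀ a b : k, a ≠ 0 → b ≠ 0 → a * b ≠ 1 →
    cL absv gs a * cL absv gs ((a * b - 1) / a) = cL absv gs b * cL absv gs (b * (a * b - 1))

/-- The constants `γ`, `η` of the Weil representation. -/
structure EtaOut (absv : k → ℝ) (t n : k) (κ : ℝ) (gs : k → ℂ) (γ : ℂ) (η : k → ℂ) :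
    Prop where
  eta_mul : ∀ a b : k, a ≠ 0 → b ≠ 0 → η (a * b) = η a * η b
  eta_sq : ∀ a : k, a ≠ 0 → η a = 1 ∨ η a = -1
  eta_norm : ∀ b : k, b ≠ 0 → IsNormL t n b → η b = 1
  eta_cont : ContinuousOn η {a | a ≠ 0}
  /-- `W² = T(-1)`. -/
  r5 : γ ^ 2 * (κ : ℂ) = η (-1)
  /-- `W N(a) W = T(-1/a) N(-a) W N(-1/a)`. -/
  r6 : ∀ a : k, a ≠ 0 → γ * cL absv gs a = η (-a)

end Local

/-! ## 2. Abstract algebra of `SL₂` (any field, any monoid) -/

section Abstract

/-- The six relations `R1 … R6` between `N(x)`, `T(a)`, `W` in a monoid `M`. -/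
structure CellRel (k M : Type) [Field k] [Monoid M] (N T : k → M) (W : M) : Prop where
  n_add : ∀ x y : k, N x * N y = N (x + y)
  n_zero : N 0 = 1
  t_mul : ∀ a b : k, a ≠ 0 → b ≠ 0 → T a * T b = T (a * b)
  t_one : T 1 = 1
  t_n : ∀ a x : k, a ≠ 0 → T a * N x = N (a ^ 2 * x) * T a
  w_t : ∀ a : k, a ≠ 0 → W * T a = T a⁻¹ * W
  w_sq : W * W = T (-1)
  w_n_w : ∀ a : k, a ≠ 0 → W * N a * W = T (-a⁻¹) * N (-a) * W * N (-a⁻¹)

/-- A representation of `SL₂(k)` (matrices of determinant `1`) in `M` with the values `N`, `T`,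
`W` on the generators. -/
structure IsSLRep (k M : Type) [Field k] [Monoid M] (N T : k → M) (W : M)
    (r : Matrix (Fin 2) (Fin 2) k → M) : Prop where
  one : r 1 = 1
  mul : ∀ s s' : Matrix (Fin 2) (Fin 2) k, s.det = 1 → s'.det = 1 → r (s * s') = r s * r s'
  unip : ∀ x : k, r (nMat x) = N x
  weyl : r wMat = W
  diag : ∀ a : k, a ≠ 0 → r (tMat a) = T a

/-- **Leaf CELL (abstract; Mathlib only).**  Operators with the relations `R1 … R6` define a
representation of `SL₂(k)`: `r [[a,b],[0,a⁻¹]] = N(ab) T(a)`,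
`r [[a,b],[c,d]] = N(a/c) W T(-c) N(d/c)` for `c ≠ 0`; `r (g s) = r g · r s` for the generators
`g = n(x), t(u), w` by cells (see the header), then for all `g` by the Bruhat decomposition. -/
def CellC : Prop :=
  ∀ (k M : Type) [Field k] [Monoid M] (N T : k → M) (W : M),
    CellRel k M N T W → ∃ r : Matrix (Fin 2) (Fin 2) k → M, IsSLRep k M N T W r

/-- The relations between the torus operators `D(m)` and the generators. -/
structure TorRel (k M : Type) [Field k] [Monoid M] (t n : k) (N T : k → M) (W : M)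
    (D : Matrix (Fin 2) (Fin 2) k → M) : Prop where
  d_one : D 1 = 1
  d_mul : ∀ m m' : Matrix (Fin 2) (Fin 2) k, InTorL t n m → m.det ≠ 0 → InTorL t n m' →
    m'.det ≠ 0 → D (m * m') = D m * D m'
  d_n : ∀ m : Matrix (Fin 2) (Fin 2) k, InTorL t n m → m.det ≠ 0 →
    ∀ x : k, D m * N x = N (x * (m.det)⁻¹) * D m
  d_t : ∀ m : Matrix (Fin 2) (Fin 2) k, InTorL t n m → m.det ≠ 0 →
    ∀ a : k, a ≠ 0 → D m * T a = T a * D m
  d_w : ∀ m : Matrix (Fin 2) (Fin 2) k, InTorL t n m → m.det ≠ 0 →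
    D m * W = W * T m.det * D m

/-- **Leaf TORUS-EXT (abstract; Mathlib only).**  `R (g, m) := r (g · d(det m)⁻¹) · D(m)` is
multiplicative on the admissible pairs: `D(m) r(s) = r (d s d⁻¹) D(m)`, `d = d(det m)`, holds on
the generators (`d n(x) d⁻¹ = n(x / det m)`, `d t(a) d⁻¹ = t(a)`, `d w d⁻¹ = w t(det m)`), hence on
`SL₂(k)` (Bruhat decomposition + `IsSLRep.mul`). -/
def TorExtC : Prop :=
  ∀ (k M : Type) [Field k] [Monoid M] (t n : k) (N T : k → M) (W : M)
    (r : Matrix (Fin 2) (Fin 2) k → M) (D : Matrix (Fin 2) (Fin 2) k → M),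
    IsSLRep k M N T W r → TorRel k M t n N T W D →
    ∃ R : Matrix (Fin 2) (Fin 2) k → Matrix (Fin 2) (Fin 2) k → M,
      R 1 1 = 1 ∧
      (∀ g m g' m' : Matrix (Fin 2) (Fin 2) k, AdmL t n g m → AdmL t n g' m' →
        R (g * g') (m * m') = R g m * R g' m') ∧
      (∀ s : Matrix (Fin 2) (Fin 2) k, s.det = 1 → R s 1 = r s) ∧
      (∀ m : Matrix (Fin 2) (Fin 2) k, InTorL t n m → m.det ≠ 0 → R (dMat m.det) m = D m)

end Abstract

/-! ## 3. The leaves at a finite place -/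

section Leaves

/-- **Leaf SB-INT.**  Schwartz--Bruhat functions on `K_v²` are integrable for `μ × μ`
(`K_v` is second countable, so `borel (K_v × K_v)` is the product σ-algebra; `μ` is finite on
compact sets). -/
def SBIntC : Prop :=
  ∀ (K : Type) [Field K] [NumberField K] (v : HeightOneSpectrum (𝓞 K))
    (μ : @Measure (v.adicCompletion K) (borel (v.adicCompletion K))),
    IsHaarL μ → SBIntAt μ

/-- **Leaf HAAR-GL2.**  `∫ f(A y) dy = ‖det A‖⁻¹ ∫ f(y) dy` on `K_v²` (the norm of `K_v` is the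
module: `μ(a S) = ‖a‖ μ(S)`; elementary matrices, or `A 𝒪² ` versus `𝒪²` by the elementary
divisors). -/
def HaarGL2C : Prop :=
  ∀ (K : Type) [Field K] [NumberField K] (v : HeightOneSpectrum (𝓞 K))
    (μ : @Measure (v.adicCompletion K) (borel (v.adicCompletion K))),
    IsHaarL μ → HaarGL2At (fun x : v.adicCompletion K => ‖x‖) μ

/-- **Leaf FT-SB.**  The Fourier transform of a Schwartz--Bruhat function is Schwartz--Bruhat:
`F(1_{y₀ + Λ})(ξ) = ψ(B(ξ, y₀)) μ²(Λ) 1_{Λ^⊥}(ξ)`; `Λ^⊥` is a lattice because `B` is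
nondegenerate (`t² - 4n ≠ 0`) and `ψ` has a conductor. -/
def FTSBC : Prop :=
  ∀ (K : Type) [Field K] [NumberField K] (v : HeightOneSpectrum (𝓞 K))
    (t n : v.adicCompletion K) (ψ : v.adicCompletion K → ℂ)
    (μ : @Measure (v.adicCompletion K) (borel (v.adicCompletion K))),
    t ^ 2 - 4 * n ≠ 0 → IsCharL ψ → (∃ x, ψ x ≠ 1) → IsHaarL μ → FTSBAt t n ψ μ

/-- **Leaf FT-INV.**  Fourier inversion on `S(K_v²)`: `F (F Φ) = κ Φ(-·)`,
`κ = μ²(Λ) μ²(Λ^⊥) > 0` (independent of the lattice `Λ`; `Λ^⊥⊥ = Λ`). -/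
def FTInvC : Prop :=
  ∀ (K : Type) [Field K] [NumberField K] (v : HeightOneSpectrum (𝓞 K))
    (t n : v.adicCompletion K) (ψ : v.adicCompletion K → ℂ)
    (μ : @Measure (v.adicCompletion K) (borel (v.adicCompletion K))),
    t ^ 2 - 4 * n ≠ 0 → IsCharL ψ → (∃ x, ψ x ≠ 1) → IsHaarL μ → ∃ κ : ℝ, FTInvAt t n ψ μ κ

/-- **Leaf GAUSS.**  The Gauss identity (Weil 1964 §14, Thm 2; Jacquet--Langlands Lemma 1.2):
for `Φ` Schwartz--Bruhat exchange the integrals over a large lattice `Λ_j`, complete the square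
`a Q(y) + B(y, u) = a Q(y + u/a) - Q(u)/a`, and use that `∫_{Λ_j} ψ(a Q(y)) dy` is stationary in
`j` (on a shell the integral over each coset of a small lattice vanishes). -/
def GaussC : Prop :=
  ∀ (K : Type) [Field K] [NumberField K] (v : HeightOneSpectrum (𝓞 K))
    (t n : v.adicCompletion K) (ψ : v.adicCompletion K → ℂ)
    (μ : @Measure (v.adicCompletion K) (borel (v.adicCompletion K))),
    t ^ 2 - 4 * n ≠ 0 → IsCharL ψ → (∃ x, ψ x ≠ 1) → IsHaarL μ →
    ∃ gs : v.adicCompletion K → ℂ, GaussAt t n ψ μ gs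

/-- **Leaf NORM-INDEX.**  The norm group of the quadratic algebra `K_v[ω]`, `ω² - tω + n = 0`,
has index `≤ 2` in `K_v^×` (header: elementary proof; all residue characteristics, `2`
included). -/
def NormIndexC : Prop :=
  ∀ (K : Type) [Field K] [NumberField K] (v : HeightOneSpectrum (𝓞 K))
    (t n : v.adicCompletion K), t ^ 2 - 4 * n ≠ 0 → NormIndexAt t n

/-- **Leaf NORM-OPEN.**  The norms contain a neighbourhood of `1` (squares: Hensel for
`x² = a`, `‖a - 1‖ < ‖4‖`; `Q(x, 0) = x²`). -/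
def NormOpenC : Prop :=
  ∀ (K : Type) [Field K] [NumberField K] (v : HeightOneSpectrum (𝓞 K))
    (t n : v.adicCompletion K),
    ∃ δ : ℝ, 0 < δ ∧ ∀ a : v.adicCompletion K, ‖a - 1‖ < δ → IsNormL t n a

/-- **Leaf SUM-NORM.**  If `-1` is not a norm, some sum of two norms is a nonzero non-norm:
otherwise `p^j - 1 = 1 + ⋯ + 1` is a norm for all `j`, `1 - p^j → 1` is a norm for `j` large
(`NormOpenC`; `p` the residue characteristic), and `-1 = (p^j - 1)/(1 - p^j)` is a norm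
(the nonzero norms form a group: Brahmagupta). -/
def SumNormC : Prop :=
  ∀ (K : Type) [Field K] [NumberField K] (v : HeightOneSpectrum (𝓞 K))
    (t n : v.adicCompletion K),
    (∃ δ : ℝ, 0 < δ ∧ ∀ a : v.adicCompletion K, ‖a - 1‖ < δ → IsNormL t n a) →
    SumNormAt t n

/-- **Leaf CONST-ID.**  The identities between the constants: formal consequences of Fourier
inversion, of the change of variable and of the Gauss identity (header). -/
def ConstIdC : Prop :=
  ∀ (K : Type) [Field K] [NumberField K] (v : HeightOneSpectrum (𝓞 K))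
    (t n : v.adicCompletion K) (ψ : v.adicCompletion K → ℂ)
    (μ : @Measure (v.adicCompletion K) (borel (v.adicCompletion K))),
    t ^ 2 - 4 * n ≠ 0 → IsCharL ψ → (∃ x, ψ x ≠ 1) → IsHaarL μ →
    SBIntAt μ → HaarGL2At (fun x : v.adicCompletion K => ‖x‖) μ → FTSBAt t n ψ μ →
    ∀ (κ : ℝ) (gs : v.adicCompletion K → ℂ), FTInvAt t n ψ μ κ → GaussAt t n ψ μ gs →
      ConstIdOut (fun x : v.adicCompletion K => ‖x‖) t n κ gs

/-- **Leaf ETA.**  The constants `γ = 1 / c(-1)` and `η(b) = c(-b) / c(-1)` (header).  Only the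
function `c` and the arithmetic of the norm form occur; no integral. -/
def EtaC : Prop :=
  ∀ (K : Type) [Field K] [NumberField K] (v : HeightOneSpectrum (𝓞 K))
    (t n : v.adicCompletion K) (κ : ℝ) (gs : v.adicCompletion K → ℂ), 0 < κ →
    ConstIdOut (fun x : v.adicCompletion K => ‖x‖) t n κ gs →
    NormIndexAt t n →
    (∃ δ : ℝ, 0 < δ ∧ ∀ a : v.adicCompletion K, ‖a - 1‖ < δ → IsNormL t n a) →
    SumNormAt t n →
    ∃ (γ : ℂ) (η : v.adicCompletion K → ℂ),
      EtaOut (fun x : v.adicCompletion K => ‖x‖) t n κ gs γ η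

/-- **Leaf ASM.**  The package from the analytic facts, the constants and the abstract algebra:
`M := Function.End {Φ // IsSB Φ}`; `N(x)`, `T(a) = η(a) T₀(a)`, `W = γ F`, `D(m)` preserve the
Schwartz--Bruhat functions; `CellRel` (R4 from `HaarGL2At`, R5 from `FTInvAt` and `r5`, R6 from
`GaussAt` and `r6`) and `TorRel` (from `HaarGL2At`, `eta_norm`); then `CellC`, `TorExtC`, and
`R g m Φ := R' g m ⟨Φ, _⟩` on the Schwartz--Bruhat functions (`0` elsewhere). -/
def AsmC : Prop :=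
  ∀ (K : Type) [Field K] [NumberField K] (v : HeightOneSpectrum (𝓞 K))
    (t n : v.adicCompletion K) (ψ : v.adicCompletion K → ℂ)
    (μ : @Measure (v.adicCompletion K) (borel (v.adicCompletion K))),
    t ^ 2 - 4 * n ≠ 0 → IsCharL ψ → (∃ x, ψ x ≠ 1) → IsHaarL μ →
    SBIntAt μ → HaarGL2At (fun x : v.adicCompletion K => ‖x‖) μ → FTSBAt t n ψ μ →
    ∀ (κ : ℝ) (gs : v.adicCompletion K → ℂ) (γ : ℂ) (η : v.adicCompletion K → ℂ),
      FTInvAt t n ψ μ κ → GaussAt t n ψ μ gs →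
      EtaOut (fun x : v.adicCompletion K => ‖x‖) t n κ gs γ η →
      CellC → TorExtC →
      ∃ R : Matrix (Fin 2) (Fin 2) (v.adicCompletion K) →
          Matrix (Fin 2) (Fin 2) (v.adicCompletion K) →
          (v.adicCompletion K × v.adicCompletion K → ℂ) →
          v.adicCompletion K × v.adicCompletion K → ℂ,
        WeilPkg (fun x : v.adicCompletion K => ‖x‖) t n ψ μ γ η R

/-- **THE TARGET of LOC-FIN**: the local Weil representation exists at every finite place, for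
every nondegenerate norm form, every nontrivial character and every Haar measure. -/
def PkgC : Prop :=
  ∀ (K : Type) [Field K] [NumberField K] (v : HeightOneSpectrum (𝓞 K))
    (t n : v.adicCompletion K) (ψ : v.adicCompletion K → ℂ)
    (μ : @Measure (v.adicCompletion K) (borel (v.adicCompletion K))),
    t ^ 2 - 4 * n ≠ 0 → IsCharL ψ → (∃ x, ψ x ≠ 1) → IsHaarL μ →
    ∃ (γ : ℂ) (η : v.adicCompletion K → ℂ)
      (R : Matrix (Fin 2) (Fin 2) (v.adicCompletion K) →
          Matrix (Fin 2) (Fin 2) (v.adicCompletion K) →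
          (v.adicCompletion K × v.adicCompletion K → ℂ) →
          v.adicCompletion K × v.adicCompletion K → ℂ),
      WeilPkg (fun x : v.adicCompletion K => ‖x‖) t n ψ μ γ η R

end Leaves

/-! ## 4. The top (PROVED) -/

/-- **The top of LOC-FIN**: the package from the thirteen leaves. -/
theorem pkg_of_leaves361 (hInt : SBIntC) (hGL : HaarGL2C) (hSB : FTSBC) (hInv : FTInvC)
    (hGauss : GaussC) (hIdx : NormIndexC) (hOpen : NormOpenC) (hSum : SumNormC)
    (hConst : ConstIdC) (hEta : EtaC) (hCell : CellC) (hTor : TorExtC) (hAsm : AsmC) :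
    PkgC := by
  intro K _ _ v t n ψ μ hd hψ hψ1 hμ
  have h1 := hInt K v μ hμ
  have h2 := hGL K v μ hμ
  have h3 := hSB K v t n ψ μ hd hψ hψ1 hμ
  obtain ⟨κ, hκ⟩ := hInv K v t n ψ μ hd hψ hψ1 hμ
  obtain ⟨gs, hgs⟩ := hGauss K v t n ψ μ hd hψ hψ1 hμ
  have hc := hConst K v t n ψ μ hd hψ hψ1 hμ h1 h2 h3 κ gs hκ hgs
  have ho := hOpen K v t n
  obtain ⟨γ, η, hη⟩ := hEta K v t n κ gs hκ.1 hc (hIdx K v t n hd) ho (hSum K v t n ho)
  obtain ⟨R, hR⟩ := hAsm K v t n ψ μ hd hψ hψ1 hμ h1 h2 h3 κ gs γ η hκ hgs hη hCell hTor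
  exact ⟨γ, η, R, hR⟩

/-- **For the consumers** (LOC-GOOD, LOC-BAD, ASM of `DataC`): at a finite place, for every
Schwartz--Bruhat `Φ₀`, a family with `LocAx`, `F 1 1 = Φ₀`, Schwartz--Bruhat values, and the
package behind it. -/
theorem locFin_of_pkg361 (hPkg : PkgC) (hInt : SBIntC)
    (K : Type) [Field K] [NumberField K] (v : HeightOneSpectrum (𝓞 K))
    (t n : v.adicCompletion K) (ψ : v.adicCompletion K → ℂ)
    (μ : @Measure (v.adicCompletion K) (borel (v.adicCompletion K)))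
    (hd : t ^ 2 - 4 * n ≠ 0) (hψ : IsCharL ψ) (hψ1 : ∃ x, ψ x ≠ 1) (hμ : IsHaarL μ) :
    ∃ (γ : ℂ) (η : v.adicCompletion K → ℂ)
      (R : Matrix (Fin 2) (Fin 2) (v.adicCompletion K) →
          Matrix (Fin 2) (Fin 2) (v.adicCompletion K) →
          (v.adicCompletion K × v.adicCompletion K → ℂ) →
          v.adicCompletion K × v.adicCompletion K → ℂ),
      WeilPkg (fun x : v.adicCompletion K => ‖x‖) t n ψ μ γ η R ∧
      ∀ Φ₀ : v.adicCompletion K × v.adicCompletion K → ℂ, IsSB Φ₀ →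
        LocAx (fun x : v.adicCompletion K => ‖x‖) t n ψ μ γ η (fun g m => R g m Φ₀) ∧
        R 1 1 Φ₀ = Φ₀ ∧
        ∀ g m : Matrix (Fin 2) (Fin 2) (v.adicCompletion K), AdmL t n g m →
          IsLocallyConstant (R g m Φ₀) ∧ HasCompactSupport (R g m Φ₀) := by
  obtain ⟨γ, η, R, hR⟩ := hPkg K v t n ψ μ hd hψ hψ1 hμ
  refine ⟨γ, η, R, hR, fun Φ₀ h₀ => ⟨?_, hR.one Φ₀ h₀, fun g m hgm => hR.sb g m hgm Φ₀ h₀⟩⟩
  exact locAx_of_pkg361 hR hμ hψ (hInt K v μ hμ) Φ₀ h₀

end Fermat.Agent.LT.A2.LF361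

end
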